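/-
helper12, programme MW (S17), brick HM-AFF: heights of AFFINE coordinate vectors of sections.

Setting of `HM73/Quad.lean`: `V` integral, `f : V ⟶ Spec Ω` universally closed (`Ω` of
characteristic `0`, algebraic over `ℚ`), `s : ι → K(V)` a finite family generating an invertible
subsheaf `M ⊆ K(V)` (`SectionsOf s s`) with `s i0 = 1`, `k1 : ℕ`, and `c : κ → K(V)` a finite
family of sections of `M^{k1}` (`SectionsOf (fun i => s i ^ k1) c`).

`exists_const_absLogHeight_aff_le` : there is a constant `C` such that for every `Ω`-point `x`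
of `V` at which `s i0 = 1` generates `M` (i.e. `x ∈ U = V ∖ supp(div)`), the affine vector
`(1 : c_l(x))_l` satisfies `absLogHeight (aff fun l => c_l(x)) ≤ k1 * hgt f s x + C`.

Proof: the family `s' = (s_i^{k1})_i ⊔ (c_l)_l` generates the same sheaf `M^{k1}` as `(s_i^{k1})_i`,
so the key lemma `HM73.exists_const_abs_famHeight_sub_le` bounds `|h_{s'} - k1 h_s|`; at `x` the
member `s_{i0}^{k1} = 1` generates `s'` and the value vector of `s'` contains `(1 : c_l(x))`.
-/
import Fermat.Agent.MW.HM73.Quad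
import Fermat.Agent.MW.AffinePoly10

set_option autoImplicit false
set_option linter.unusedSectionVars false
set_option linter.style.haveILetI false

universe u

open CategoryTheory AlgebraicGeometry

namespace Fermat.Agent.MW.HM12

open Fermat.Agent.MW.HM73 Fermat.Agent.MW.AbsHeightDef10 Fermat.Agent.MW.AffinePoly10

section Abstract

variable {k K : Type*} [Field k] [Field K] [Algebra k K] {ι κ : Type*}

/-- The family `(s_i^{k1})_i ⊔ (c_l)_l`. -/
def joinFam (s : ι → K) (k1 : ℕ) (c : κ → K) : ι ⊕ κ → K :=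
  Sum.elim (fun i => s i ^ k1) c

/-- The re-indexing `Option κ → ι ⊕ κ`, `none ↦ inl i0`, `some l ↦ inr l`. -/
def affIdx (i0 : ι) : Option κ → ι ⊕ κ := fun o => o.elim (Sum.inl i0) Sum.inr

/-- Sections of `M^{k1}` are regular at the points where `s i0 = 1` generates `M`. -/
theorem mem_O_of_genAt (p : EvalPt k K) (s : ι → K) (i0 : ι) (hi0 : s i0 = 1)
    (hgen : GenAt p s i0) (k1 : ℕ) (a : K)
    (ha : ∃ i, s i ^ k1 ≠ 0 ∧ a / s i ^ k1 ∈ p.O) : a ∈ p.O := by
  obtain ⟨i, hi, h⟩ := ha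
  have h1 : s i ∈ p.O := by
    have := hgen.2 i
    rwa [hi0, div_one] at this
  have h2 : a = a / s i ^ k1 * s i ^ k1 := by field_simp
  rw [h2]
  exact p.O.mul_mem h (p.O.pow_mem h1 k1)

theorem genAt_joinFam (p : EvalPt k K) (s : ι → K) (i0 : ι) (hi0 : s i0 = 1)
    (hgen : GenAt p s i0) (k1 : ℕ) (c : κ → K) (hmem : ∀ l, c l ∈ p.O) :
    GenAt p (joinFam s k1 c) (Sum.inl i0) := by
  have h1 : joinFam s k1 c (Sum.inl i0) = 1 := by
    show s i0 ^ k1 = 1
    rw [hi0, one_pow]
  refine ⟨by rw [h1]; exact one_ne_zero, fun a => ?_⟩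
  rw [h1, div_one]
  rcases a with j | l
  · show s j ^ k1 ∈ p.O
    have := hgen.2 j
    rw [hi0, div_one] at this
    exact p.O.pow_mem this k1
  · exact hmem l

theorem valueVec_joinFam_comp (p : EvalPt k K) (s : ι → K) (i0 : ι) (hi0 : s i0 = 1)
    (hgen : GenAt p s i0) (k1 : ℕ) (c : κ → K) (hmem : ∀ l, c l ∈ p.O) :
    valueVec p (joinFam s k1 c) (Sum.inl i0) (genAt_joinFam p s i0 hi0 hgen k1 c hmem) ∘
      affIdx i0 = aff fun l => p.ev ⟨c l, hmem l⟩ := by
  funext o
  rcases o with _ | l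
  · show valueVec p (joinFam s k1 c) (Sum.inl i0) _ (Sum.inl i0) = 1
    exact valueVec_self _ _ _ _
  · show p.ev ⟨c l / joinFam s k1 c (Sum.inl i0), _⟩ = p.ev ⟨c l, hmem l⟩
    congr 1
    apply Subtype.ext
    show c l / s i0 ^ k1 = c l
    rw [hi0, one_pow, div_one]

variable [CharZero k] [Algebra.IsAlgebraic ℚ k] [Finite ι] [Finite κ]

/-- The affine vector `(1 : c_l(p))` is a sub-tuple of the value vector of the joined family. -/
theorem absLogHeight_aff_le_famHeight (p : EvalPt k K) (s : ι → K) (i0 : ι) (hi0 : s i0 = 1)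
    (hgen : GenAt p s i0) (k1 : ℕ) (c : κ → K) (hmem : ∀ l, c l ∈ p.O) :
    absLogHeight (aff fun l => p.ev ⟨c l, hmem l⟩) ≤ famHeight p (joinFam s k1 c) := by
  rw [famHeight_eq p _ (Sum.inl i0) (genAt_joinFam p s i0 hi0 hgen k1 c hmem),
    ← valueVec_joinFam_comp p s i0 hi0 hgen k1 c hmem]
  exact absLogHeight_comp_le _ _

end Abstract

section Geometric

variable {Ω : Type u} [Field Ω] [CharZero Ω] [Algebra.IsAlgebraic ℚ Ω]
  {V : Scheme.{u}} [IsIntegral V] (f : V ⟶ Spec (CommRingCat.of Ω))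
  {ι κ : Type*} [Finite ι] [Finite κ]

theorem sectionsOf_joinFam_pow (s : ι → V.functionField) (hs : SectionsOf s s) (k1 : ℕ)
    (c : κ → V.functionField) :
    SectionsOf (joinFam s k1 c) (fun i => s i ^ k1) := by
  intro x
  obtain ⟨i, hi, h⟩ := hs x
  refine ⟨Sum.inl i, pow_ne_zero k1 hi, fun j => ?_⟩
  show s j ^ k1 / s i ^ k1 ∈ stalkSubring x
  rw [← div_pow]
  exact (stalkSubring x).pow_mem (h j) k1

theorem sectionsOf_pow_joinFam (s : ι → V.functionField) (hs : SectionsOf s s) (k1 : ℕ)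
    (c : κ → V.functionField) (hc : SectionsOf (fun i => s i ^ k1) c) :
    SectionsOf (fun i => s i ^ k1) (joinFam s k1 c) := by
  intro x
  obtain ⟨i, hi, h⟩ := hs x
  obtain ⟨i', hi', h'⟩ := hc x
  refine ⟨i, pow_ne_zero k1 hi, fun a => ?_⟩
  rcases a with j | l
  · show s j ^ k1 / s i ^ k1 ∈ stalkSubring x
    rw [← div_pow]
    exact (stalkSubring x).pow_mem (h j) k1
  · show c l / s i ^ k1 ∈ stalkSubring x
    have e : c l / s i ^ k1 = c l / s i' ^ k1 * (s i' / s i) ^ k1 := by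
      rw [div_pow, div_mul_div_cancel₀ hi']
    rw [e]
    exact (stalkSubring x).mul_mem (h' l) ((stalkSubring x).pow_mem (h i') k1)

/-- Sections of `M^{k1}` are regular at the `Ω`-points where `s i0 = 1` generates `M`. -/
theorem mem_O_of_sectionsOf (s : ι → V.functionField) (i0 : ι) (hi0 : s i0 = 1) (k1 : ℕ)
    (c : κ → V.functionField) (hc : SectionsOf (fun i => s i ^ k1) c) (x : Pt f)
    (hgen : letI := ffAlgebra f; GenAt (evalPtOfSection f x.1 x.2) s i0) (l : κ) :
    letI := ffAlgebra f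
    c l ∈ (evalPtOfSection f x.1 x.2).O := by
  letI := ffAlgebra f
  obtain ⟨i, hi, h⟩ := hc (sectionPt x.1)
  exact mem_O_of_genAt _ s i0 hi0 hgen k1 (c l) ⟨i, hi, h l⟩

variable [UniversallyClosed f]

/-- **HM-AFF.** Heights of the affine coordinate vectors `(1 : c_l(x))` of sections `c_l` of
`M^{k1}` are bounded by `k1 * h_s(x) + C` on the `Ω`-points of the open set where `s i0 = 1`
generates `M`. -/
theorem exists_const_absLogHeight_aff_le (s : ι → V.functionField) (hs : SectionsOf s s)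
    (i0 : ι) (hi0 : s i0 = 1) (k1 : ℕ) (c : κ → V.functionField)
    (hc : SectionsOf (fun i => s i ^ k1) c) :
    ∃ C : ℝ, ∀ x : Pt f,
      letI := ffAlgebra f
      ∀ (_hgen : GenAt (evalPtOfSection f x.1 x.2) s i0)
        (hmem : ∀ l, c l ∈ (evalPtOfSection f x.1 x.2).O),
        absLogHeight (aff fun l => (evalPtOfSection f x.1 x.2).ev ⟨c l, hmem l⟩) ≤
          k1 * hgt f s x + C := by
  letI := ffAlgebra f
  obtain ⟨C, hC⟩ := exists_const_abs_famHeight_sub_le f _ _
    (sectionsOf_joinFam_pow s hs k1 c) (sectionsOf_pow_joinFam s hs k1 c hc)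
  refine ⟨C, fun x hgen hmem => ?_⟩
  have key := hC x.1 x.2
  have e1 : famHeight (evalPtOfSection f x.1 x.2) (fun i => s i ^ k1) = k1 * hgt f s x :=
    famHeight_pow _ _ ⟨i0, hgen⟩ k1
  have h1 := absLogHeight_aff_le_famHeight (evalPtOfSection f x.1 x.2) s i0 hi0 hgen k1 c hmem
  rw [e1] at key
  have h2 := (abs_le.1 key).2
  linarith

end Geometric

end Fermat.Agent.MW.HM12
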